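import Fermat.Agent.TwoAdic.Removal.Defs
import Fermat.Agent.TwoAdic.Contracts.Defs
import Fermat.Agent.EichlerShimura.KummerIso
import Fermat.Agent.EichlerShimura.EigenCharacter
import Fermat.Agent.EichlerShimura.Plane
import Mathlib.Algebra.Module.CharacterModule

/-!
# LT2 P8 (B): a congruent system gives eigen torsion

An eigenvector of the integral Hecke matrices over `ℚ̄₂`, scaled to norm one and pushed to `ℚ/ℤ`
by an additive functional killing the ball of radius `2 ^ -k`, is a torsion point of order `2 ^ k`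
with the eigenvalues modulo `2 ^ k`.

Owner: helper53.
-/

set_option autoImplicit false

noncomputable section

open ModularCurve ModularFormClass CongruenceSubgroup Matrix Module Fermat.Agent.EichlerShimura

namespace Fermat.Agent.TwoAdic.Removal

local notation "K₂" => PadicAlgCl 2

theorem norm_two_eq : ‖(2 : K₂)‖ = (2 : ℝ)⁻¹ := by
  rw [← map_ofNat (algebraMap ℚ_[2] K₂) 2, PadicAlgCl.norm_extends]
  simpa using Padic.norm_p (p := 2)

/-- An additive map to `ℚ/ℤ` killing the ball of radius `2 ^ -(j+1)` but not `2 ^ j`. -/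
theorem exists_ball_functional (j : ℕ) :
    ∃ ψ : K₂ →+ QZ, (∀ y : K₂, ‖y‖ ≤ ((2 : ℝ) ^ (j + 1))⁻¹ → ψ y = 0) ∧
      ψ ((2 : K₂) ^ j) ≠ 0 := by
  let B : AddSubgroup K₂ :=
    { carrier := {y | ‖y‖ ≤ ((2 : ℝ) ^ (j + 1))⁻¹}
      zero_mem' := by simp
      add_mem' := fun {x y} hx hy =>
        (IsUltrametricDist.norm_add_le_max x y).trans (max_le hx hy)
      neg_mem' := fun {x} hx => by simpa using hx }
  have h0 : QuotientAddGroup.mk (s := B) ((2 : K₂) ^ j) ≠ 0 := by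
    rw [Ne, QuotientAddGroup.eq_zero_iff]
    intro h
    have h' : ‖(2 : K₂) ^ j‖ ≤ ((2 : ℝ) ^ (j + 1))⁻¹ := h
    rw [norm_pow, norm_two_eq, inv_pow, inv_le_inv₀ (by positivity) (by positivity), pow_succ] at h'
    have : (0 : ℝ) < 2 ^ j := by positivity
    linarith
  obtain ⟨c, hc⟩ := CharacterModule.exists_character_apply_ne_zero_of_ne_zero h0
  exact ⟨AddMonoidHom.comp (c : (K₂ ⧸ B) →+ QZ) (QuotientAddGroup.mk' B), fun y hy => by
    show c (QuotientAddGroup.mk' B y) = 0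
    rw [show QuotientAddGroup.mk' B y = 0 from (QuotientAddGroup.eq_zero_iff y).mpr hy, map_zero],
    hc⟩

/-- A common eigenvector of the Hecke matrices with the eigenvalues of `χ`, of sup norm one. -/
theorem exists_unit_eigenvector (L : ℕ) [NeZero L]
    (χ : CuspForm.heckeAlgebra L 2 (∅ : Set ℕ) →+* integralClosure ℤ ℂ)
    (ι : integralClosure ℤ ℂ →+* K₂) (hι : Function.Injective ι) :
    ∃ u : Fin (cuspRank L) → K₂, (∀ i, ‖u i‖ ≤ 1) ∧ (∃ i, u i = 1) ∧
      ∀ (ℓ : Nat.Primes) i, ∑ j, heckeMatrix L ℓ i j • u j = ι (χ (heckeTU L ℓ)) * u i := by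
  classical
  set F := FractionRing (integralClosure ℤ ℂ)
  let e : F →+* K₂ := IsFractionRing.lift hι
  obtain ⟨w, hw⟩ := Module.finrank_pos_iff_exists_ne_zero.mp
    (Nat.lt_of_lt_of_eq Nat.one_pos
      (finrank_plane L χ (ε := (1 : ℤ)) (Or.inl rfl)).symm)
  have hw' : (w : Fin (cuspRank L) → F) ≠ 0 := fun h => hw (Subtype.ext h)
  obtain ⟨i₁, hi₁⟩ := Function.ne_iff.mp hw'
  let v : Fin (cuspRank L) → K₂ := fun i => e ((w : Fin (cuspRank L) → F) i)
  have hv : ∀ (ℓ : Nat.Primes) i,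
      ∑ j, heckeMatrix L ℓ i j • v j = ι (χ (heckeTU L ℓ)) * v i := by
    intro ℓ i
    have h := congrFun (mem_jointKer.mp w.2 (some ℓ)) i
    rw [planeMatrices, sub_mulVec, Pi.sub_apply, mulVec_intMatrix, smul_mulVec, one_mulVec,
      Pi.zero_apply, sub_eq_zero] at h
    have h2 := congrArg e h
    simp only [map_sum, map_zsmul, Pi.smul_apply, smul_eq_mul, map_mul] at h2
    rw [h2, show e (algebraMap _ F (χ (heckeTU L ℓ))) = ι (χ (heckeTU L ℓ)) from
      IsFractionRing.lift_algebraMap hι _]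
  obtain ⟨i₀, -, hmax⟩ := Finset.exists_max_image Finset.univ (fun i => ‖v i‖)
    ⟨i₁, Finset.mem_univ _⟩
  have hv0 : v i₀ ≠ 0 := fun h => by
    have h1 := hmax i₁ (Finset.mem_univ _)
    rw [h, norm_zero, norm_le_zero_iff] at h1
    exact hi₁ ((map_eq_zero e).mp h1)
  refine ⟨fun i => (v i₀)⁻¹ * v i, fun i => ?_, ⟨i₀, inv_mul_cancel₀ hv0⟩, fun ℓ i => ?_⟩
  · rw [norm_mul, norm_inv]
    exact inv_mul_le_one_of_le₀ (hmax i (Finset.mem_univ _)) (norm_nonneg _)
  · rw [mul_left_comm, ← hv, Finset.mul_sum]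
    exact Finset.sum_congr rfl fun j _ => (mul_smul_comm _ _ _).symm

theorem hasEigenTorsion_of_closeSystem {V : WeierstrassCurve ℤ} {k L : ℕ} [NeZero L]
    (h : HasCloseSystem V k L) : HasEigenTorsion V.apOfModel L L k := by
  classical
  rcases k with - | j
  · exact ⟨0, zero_mem _, by simp⟩
  obtain ⟨f, hf, ι, hι, hclose⟩ := h
  obtain ⟨χ, hχ⟩ := exists_eigenCharacter hf
  obtain ⟨u, hu1, ⟨i₀, hi₀⟩, hu⟩ := exists_unit_eigenvector L χ ι hι
  obtain ⟨ψ, hψ, hψ0⟩ := exists_ball_functional j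
  obtain ⟨e, heT, -, -⟩ := hasKummerIso L
  let φ : Periods.cuspidalHoms ℤ (Gamma0 L) QZ := (cuspCoords L QZ).symm fun i => ψ (u i)
  have hφ : ∀ i, (φ : Additive (Gamma0 L) →+ QZ) (Additive.ofMul (cuspGen L i)) = ψ (u i) :=
    fun i => congrFun ((cuspCoords L QZ).apply_symm_apply fun i => ψ (u i)) i
  have hinj : ∀ {A B : Periods.cuspidalHoms ℤ (Gamma0 L) QZ},
      (∀ i, (A : Additive (Gamma0 L) →+ QZ) (Additive.ofMul (cuspGen L i)) =
        (B : Additive (Gamma0 L) →+ QZ) (Additive.ofMul (cuspGen L i))) → A = B :=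
    fun h => (cuspCoords L QZ).injective (funext h)
  let x : torsionPts L := e.symm φ
  -- killed by `2 ^ (j + 1)`
  have hkill : 2 ^ (j + 1) • φ = 0 := by
    refine hinj fun i => ?_
    simp only [AddSubmonoidClass.coe_nsmul, AddMonoidHom.nsmul_apply, hφ, ZeroMemClass.coe_zero,
      AddMonoidHom.zero_apply, ← map_nsmul]
    refine hψ _ ?_
    rw [nsmul_eq_mul, Nat.cast_pow, Nat.cast_ofNat, norm_mul, norm_pow, norm_two_eq, inv_pow]
    exact mul_le_of_le_one_right (by positivity) (hu1 i)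
  have hnot : ¬ 2 ^ j • φ = 0 := fun h => by
    apply hψ0
    have h1 := congrArg (fun A : Periods.cuspidalHoms ℤ (Gamma0 L) QZ =>
      (A : Additive (Gamma0 L) →+ QZ) (Additive.ofMul (cuspGen L i₀))) h
    simp only [AddSubmonoidClass.coe_nsmul, AddMonoidHom.nsmul_apply, hφ, hi₀,
      ZeroMemClass.coe_zero, AddMonoidHom.zero_apply, ← map_nsmul] at h1
    rwa [nsmul_one, Nat.cast_pow, Nat.cast_ofNat] at h1
  have hφord : addOrderOf φ = 2 ^ (j + 1) := addOrderOf_eq_prime_pow hnot hkill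
  have hxord : addOrderOf (x : JZero L) = 2 ^ (j + 1) := by
    rw [AddSubgroup.addOrderOf_coe, ← hφord]
    exact addOrderOf_injective e.symm.toAddMonoidHom e.symm.injective φ
  refine ⟨(x : JZero L), mem_eigenTorsion.2
    ⟨hxord ▸ addOrderOf_nsmul_eq_zero _, fun ℓ hℓ => ?_⟩, hxord⟩
  have key : torsionMap (heckeOperatorBar L ℓ).toAddMonoidHom x = V.apOfModel ℓ • x := by
    refine e.injective (Subtype.ext ?_)
    rw [heT ℓ hℓ, map_zsmul, e.apply_symm_apply]
    refine congrArg Subtype.val (hinj (A := ⟨_, Periods.heckeHom_mem_cuspidalHoms ℓ.2 φ.2⟩)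
      (B := V.apOfModel ℓ • φ) fun i => ?_)
    obtain ⟨b, hb, hbn⟩ := hclose ⟨ℓ, hℓ⟩
    have hbT : χ (heckeTU L ℓ) = b := by
      refine Subtype.ext ?_
      rw [heckeTU, dif_neg hℓ, hχ (ℓ : ℕ) ℓ.2 hℓ, hb]
    rw [heckeHom_apply_cuspGen L ℓ φ.2 i]
    simp only [hφ, AddSubgroupClass.coe_zsmul, AddMonoidHom.zsmul_apply,
      ← map_zsmul, ← map_sum, hu ℓ i, hbT]
    rw [← sub_eq_zero, ← map_sub, zsmul_eq_mul, ← sub_mul]
    refine hψ _ ?_
    rw [norm_mul]
    exact (mul_le_of_le_one_right (norm_nonneg _) (hu1 i)).trans hbn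
  exact congrArg Subtype.val key

end Fermat.Agent.TwoAdic.Removal
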