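import Fermat.Agent.TwoAdic.Removal.Residues
import Fermat.Agent.TwoAdic.Removal.Residual.Assembly
import Fermat.Agent.TwoAdic.Removal.Lift.Torsion
import Fermat.Agent.S18

/-!
# LT2 P8: the local inputs at an auxiliary prime

The residual classes are killed by `2 ^ n`, so have unique lifts of `2`-power torsion.

Owner: helper65.
-/

set_option autoImplicit false

noncomputable section

open ModularCurve

namespace Fermat.Agent.TwoAdic.Removal

theorem localInputsTwo_of_residues {q M c : ℕ} [NeZero M] [NeZero (M * q)] (hq : q.Prime)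
    (hq5 : 5 ≤ q) (hqM : ¬ q ∣ M) (h : LocalResidues q M c) : LocalInputsTwo q M c := by
  classical
  have : Fact q.Prime := ⟨hq⟩
  obtain ⟨w, hw, h⟩ := h
  refine ⟨w, hw, fun n L hL hG hI A hA φ hφ => ?_⟩
  obtain ⟨slope, res, hslope, hres, hker⟩ := h n L hL hG hI A hA φ hφ
  have hin : ReductionInputsModL A M := Reduction.reductionInputsModL M hqM A hA
    ⟨fun h => absurd h (by omega), fun h => absurd h (by omega)⟩
  have hcop : ¬ q ∣ 2 ^ n := fun h => by
    have := Nat.le_of_dvd two_pos (hq.dvd_of_dvd_pow h)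
    omega
  have hinj : ∀ u v : JZero M, 2 ^ n • u = 0 → 2 ^ n • v = 0 →
      reductionModL A M u = reductionModL A M v → u = v := fun u v hu hv huv => by
    refine sub_eq_zero.1 (Fermat.Agent.S18.result M hqM A hA hin (2 ^ n) hcop _ ?_
      (by rw [map_sub, huv, sub_self]))
    rw [← natCast_zsmul] at hu hv
    rw [← natCast_zsmul, zsmul_sub, hu, hv, sub_zero]
  have hzero : ∀ x : slope.ker, 2 ^ n • res x = 0 := fun x => by
    rw [← map_nsmul, show (2 ^ n • x) = 0 from Subtype.ext (Subtype.ext x.1.2.1), map_zero]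
  choose f hf0 hfred using fun x : slope.ker => exists_torsion_lift M hqM hq5 A hA n (res x).1
    (congrArg Prod.fst (hzero x))
  choose g hg0 hgred using fun x : slope.ker => exists_torsion_lift M hqM hq5 A hA n (res x).2
    (congrArg Prod.snd (hzero x))
  let comp : slope.ker →+ JZero M × JZero M := AddMonoidHom.mk' (fun x => (f x, g x)) fun x y =>
    Prod.ext
      (hinj _ _ (hf0 _) (by rw [Prod.fst_add, nsmul_add, hf0, hf0, add_zero])
        (by rw [Prod.fst_add, map_add, hfred, hfred, hfred, map_add, Prod.fst_add]))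
      (hinj _ _ (hg0 _) (by rw [Prod.snd_add, nsmul_add, hg0, hg0, add_zero])
        (by rw [Prod.snd_add, map_add, hgred, hgred, hgred, map_add, Prod.snd_add]))
  refine ⟨slope, comp, hslope, fun ℓ hℓ x y hy => ?_, fun x hx => hker x ?_⟩
  · have h1 := hres ℓ hℓ x y hy (f x) (g x) (hfred x) (hgred x)
    have hT : ∀ u : JZero M, 2 ^ n • u = 0 → 2 ^ n • heckeOperatorBar M ℓ u = 0 := fun u hu => by
      rw [← map_nsmul, hu, map_zero]
    exact Prod.ext (hinj _ _ (hf0 y) (hT _ (hf0 x)) ((hfred y).trans (congrArg Prod.fst h1)))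
      (hinj _ _ (hg0 y) (hT _ (hg0 x)) ((hgred y).trans (congrArg Prod.snd h1)))
  · have h1 : f x = 0 := congrArg Prod.fst hx
    have h2 : g x = 0 := congrArg Prod.snd hx
    exact Prod.ext (by rw [← hfred, h1, map_zero, Prod.fst_zero])
      (by rw [← hgred, h2, map_zero, Prod.snd_zero])

theorem localInputsTwo {q M : ℕ} [NeZero M] [NeZero (M * q)] (hq : q.Prime) (hq5 : 5 ≤ q)
    (hqM : ¬ q ∣ M) : LocalInputsTwo q M (2 ^ 4) :=
  localInputsTwo_of_residues hq hq5 hqM (localResidues hq hq5 hqM)

end Fermat.Agent.TwoAdic.Removal
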