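import Fermat.Agent.TwoAdic.Removal.Defs
import Fermat.Agent.BadPrime.EigenLattice
import Fermat.Agent.BadPrime.Mazur.LevelDescent
import Fermat.Agent.EichlerShimura.KummerIso
import Fermat.Agent.EichlerShimura.S29Of
import Fermat.Agent.EichlerShimura.Inputs
import Fermat.Agent.EichlerShimura.FiniteLevelX0
import Fermat.Agent.RT.TorsionFrobenius

/-!
# LT2 P8 (E): the limit

Eigen torsion of unbounded order at a fixed level makes the traces of the curve a system of that
level.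

Owner: helper65.
-/

set_option autoImplicit false

noncomputable section

open ModularCurve MvPolynomial

namespace Fermat.Agent.TwoAdic.Removal

open Fermat.Agent.EichlerShimura (torsionPts torsionMap torsionCoords coordEnd matrixEnd
  coordEnd_hecke coordEnd_apply heckeTU cuspRank QZ)
open Fermat.Agent.BadPrime.Mazur (GoodPrimes evalS evalS_X)

/-- A polynomial in the good operators vanishing on `S₂(Γ₀(M))` has value divisible by `2 ^ k` at
`a`, if its variables avoid `N` and `a` has eigen torsion of order `2 ^ k` at level `M`. -/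
theorem two_pow_dvd_eval {a : ℕ → ℤ} {N M k : ℕ} [NeZero M] (h : M ∣ N)
    (hx : HasEigenTorsion a N M k) {t : MvPolynomial (GoodPrimes M) ℤ}
    (ht : evalS (dvd_refl M) t = 0) (hvars : ∀ ℓ ∈ t.vars, ¬ ((ℓ.1 : Nat.Primes) : ℕ) ∣ N) :
    (2 : ℤ) ^ k ∣ eval (fun ℓ : GoodPrimes M => a (ℓ.1 : Nat.Primes)) t := by
  classical
  obtain ⟨e, he, -, -⟩ := EichlerShimura.hasKummerIso M
  obtain ⟨Θ, hΘ⟩ := BadPrime.exists_heckeRep M
  obtain ⟨Ψ, hΨ⟩ := BadPrime.matrixEnd_eq_ringHom (r := cuspRank M)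
  obtain ⟨x, hx, hord⟩ := hx
  let xt : torsionPts M := ⟨x, isOfFinAddOrder_iff_nsmul_eq_zero.2 ⟨2 ^ k, by positivity, hx.1⟩⟩
  set c := torsionCoords e xt with hc
  obtain ⟨t', rfl⟩ := exists_rename_eq_of_vars_subset_range t
    (Subtype.val : {ℓ : GoodPrimes M // ¬ ((ℓ.1 : Nat.Primes) : ℕ) ∣ N} → _)
    Subtype.val_injective (fun ℓ hℓ => ⟨⟨ℓ, hvars ℓ hℓ⟩, rfl⟩)
  have key : ∀ p : MvPolynomial {ℓ : GoodPrimes M // ¬ ((ℓ.1 : Nat.Primes) : ℕ) ∣ N} ℤ,
      Ψ (Θ (evalS (dvd_refl M) (rename Subtype.val p))) c =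
        eval (fun ℓ : GoodPrimes M => a (ℓ.1 : Nat.Primes)) (rename Subtype.val p) • c := by
    intro p
    induction p using MvPolynomial.induction_on with
    | C z => simp
    | add u v hu hv => rw [map_add, map_add, map_add, map_add, LinearMap.add_apply, hu, hv,
        map_add, add_zsmul]
    | mul_X u ℓ hu =>
      have hgen : Ψ (Θ (evalS (dvd_refl M) (X ℓ.1))) c = a (ℓ.1.1 : Nat.Primes) • c := by
        have h1 : Θ (evalS (dvd_refl M) (X ℓ.1)) = EichlerShimura.heckeMatrix M ℓ.1.1 := by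
          rw [evalS_X, ← hΘ, heckeTU, dif_neg ℓ.1.2]
        rw [h1, hΨ, ← coordEnd_hecke e ℓ.1.1 (heckeOperatorBar M ℓ.1.1).toAddMonoidHom
          (he ℓ.1.1 ℓ.1.2), coordEnd_apply, hc, AddEquiv.symm_apply_apply, ← map_zsmul]
        congr 1
        exact Subtype.ext (hx.2 ℓ.1.1 ℓ.2)
      rw [map_mul, rename_X, map_mul, map_mul, map_mul, Module.End.mul_apply, hgen, map_zsmul, hu,
        smul_smul, map_mul, eval_X]
      congr 1
      ring
  have h0 := key t'
  rw [ht, map_zero, map_zero, LinearMap.zero_apply, hc, ← map_zsmul] at h0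
  have h1 : _ • x = 0 := congrArg Subtype.val ((torsionCoords e).map_eq_zero_iff.1 h0.symm)
  rw [← addOrderOf_dvd_iff_zsmul_eq_zero, hord] at h1
  exact_mod_cast h1

/-- Eigen torsion of every order at level `M`, outside any finite set, gives residual modularity
at `3` at level `M`. -/
theorem isResiduallyModularOfLevel_of_eigenTorsion {V : WeierstrassCurve ℤ} (hΔ : V.Δ ≠ 0)
    {M : ℕ} [NeZero M]
    (H : ∀ (S : Finset ℕ) (k : ℕ), ∃ N, M ∣ N ∧
      (∀ ℓ ∈ S, ℓ.Prime → ¬ ℓ ∣ M → ¬ ℓ ∣ N) ∧ HasEigenTorsion V.apOfModel N M k) :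
    V.IsResiduallyModularOfLevel 3 M := by
  classical
  have hS29 : RT.EigenformResidualRep := fun hg p hp k _ _ φ =>
    EichlerShimura.exists_residualGaloisRep_isAttachedTo_of
      (fun N _ => EichlerShimura.hasKummerIso N)
      (fun N _ p _ => EichlerShimura.frobeniusOnTorsion_modular N p)
      (fun N _ => EichlerShimura.galoisFiniteLevel_x0 N) hg hp φ
  have : Fact (Nat.Prime 3) := ⟨Nat.prime_three⟩
  refine BadPrime.Mazur.isResiduallyModularOfLevel_of_killed hS29 RT.torsionFrobeniusCharpoly hΔ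
    (dvd_refl M) ∅ fun t ht _ => ?_
  set z := eval (fun ℓ : GoodPrimes M => V.apOfModel (ℓ.1 : Nat.Primes)) t with hz
  have hz0 : z = 0 := by
    refine Int.eq_zero_of_abs_lt_dvd (m := 2 ^ z.natAbs) ?_ ?_
    · obtain ⟨N, hMN, hS, hx⟩ := H (t.vars.image fun ℓ => ((ℓ.1 : Nat.Primes) : ℕ)) z.natAbs
      exact two_pow_dvd_eval hMN hx ht fun ℓ hℓ =>
        hS _ (Finset.mem_image_of_mem _ hℓ) ℓ.1.2 ℓ.2
    · rw [Int.abs_eq_natAbs]
      exact_mod_cast Nat.lt_two_pow_self
  have h3 := congrArg (Int.castRingHom (ZMod 3)) hz0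
  rw [hz, eval, map_eval₂Hom, map_zero] at h3
  rw [aeval_def]
  exact (eval₂Hom_congr (RingHom.ext_int _ _) rfl rfl).trans h3

end Fermat.Agent.TwoAdic.Removal
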