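import Fermat.Agent.TwoAdic.Removal.Relations
import Fermat.Agent.Density.FrobeniusDensity
import Fermat.Agent.EichlerShimura.GaloisHecke

/-!
# LT2 P8 (C): Mazur's principle modulo `2 ^ n` at an auxiliary prime

Let `W` be the eigen torsion of level `M q`. It is fixed by the kernel of `ρ`, so has slope zero as
`a ℓ ≠ ℓ + 1` modulo `2` for some `ℓ`. If `2 ^ j` killed its components, Frobenius at `q` would
commute with every Galois element on `2 ^ (e + j) W`, so would vanish there.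

Owner: helper65.
-/

set_option autoImplicit false

noncomputable section

open ModularCurve

namespace Fermat.Agent.TwoAdic.Removal

local notation "ℚ̄" => AlgebraicClosure ℚ
local notation "Γℚ" => (AlgebraicClosure ℚ ≃ₐ[ℚ] AlgebraicClosure ℚ)

section

variable {a : ℕ → ℤ} {N n : ℕ}

/-- The finite Galois extension cut out by `ρ`. -/
theorem RepData.exists_kernelField (D : RepData a N n) :
    ∃ L : IntermediateField ℚ ℚ̄, FiniteDimensional ℚ L ∧ IsGalois ℚ L ∧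
      L.fixingSubgroup = D.ρ.ker := by
  have : IsAlgClosure ℚ ℚ̄ := ⟨inferInstance, AlgebraicClosure.isAlgebraic ℚ⟩
  have : IsGalois ℚ ℚ̄ := IsAlgClosure.isGalois ℚ ℚ̄
  obtain ⟨L₀, hL₀, h₀⟩ := D.finiteLevel
  have hle : L₀.fixingSubgroup ≤ D.ρ.ker := fun σ hσ =>
    h₀ σ ((IntermediateField.mem_fixingSubgroup_iff _ _).1 hσ)
  have hopen : IsOpen (D.ρ.ker : Set Γℚ) :=
    Subgroup.isOpen_mono hle (IntermediateField.fixingSubgroup_isOpen L₀)
  have hfix : (IntermediateField.fixedField D.ρ.ker).fixingSubgroup = D.ρ.ker :=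
    InfiniteGalois.fixingSubgroup_fixedField ⟨D.ρ.ker, Subgroup.isClosed_of_isOpen _ hopen⟩
  exact ⟨_, (InfiniteGalois.isOpen_iff_finite _).mp (by rw [hfix]; exact hopen),
    (InfiniteGalois.normal_iff_isGalois _).mp (by rw [hfix]; infer_instance), hfix⟩

/-- A non-Eisenstein prime: `ℓ + 1 - a ℓ` is invertible modulo `2 ^ n`. -/
theorem RepData.exists_nonEisenstein (D : RepData a N n) (hN : N ≠ 0) :
    ∃ ℓ : Nat.Primes, ¬ (ℓ : ℕ) ∣ N ∧
      IsUnit (((ℓ : ℕ) : ZMod (2 ^ n)) + 1 - (a (ℓ : ℕ) : ZMod (2 ^ n))) := by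
  obtain ⟨σ, τ, hu⟩ := D.nondegenerate
  set g := σ * τ * (τ * σ)⁻¹ with hg
  obtain ⟨ℓ, hℓ, hℓS, A, F, hA, hF, -, i, j, -, hj⟩ :=
    Density.exists_isFrobeniusAt_map_pow D.ρ D.finiteLevel g N.primeFactors
  have hℓN : ¬ ℓ ∣ N := fun h => hℓS (Nat.mem_primeFactors.2 ⟨hℓ, h, hN⟩)
  obtain ⟨htr, hdet⟩ := (D.frobenius ℓ hℓ hℓN A hA).2 F hF
  refine ⟨⟨ℓ, hℓ⟩, hℓN, ?_⟩
  set Φ : Matrix (Fin 2) (Fin 2) (ZMod (2 ^ n)) := (D.ρ F).val with hΦ
  have h1 : IsUnit (Matrix.det (Φ ^ j - 1)) := by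
    have hc : Φ ^ j * ((D.ρ τ).val * (D.ρ σ).val) = (D.ρ σ).val * (D.ρ τ).val := by
      rw [hΦ, ← Units.val_pow_eq_pow_val, ← hj, ← Units.val_mul, ← Units.val_mul, ← Units.val_mul,
        ← map_mul, ← map_mul, ← map_mul]
      congr 2
      rw [hg]
      group
    rw [← hc] at hu
    nth_rewrite 2 [← one_mul ((D.ρ τ).val * (D.ρ σ).val)] at hu
    rw [← sub_mul, Matrix.det_mul] at hu
    exact isUnit_of_mul_isUnit_left hu
  rw [← geom_sum_mul, Matrix.det_mul] at h1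
  have h2 := isUnit_of_mul_isUnit_right h1
  convert h2 using 1
  rw [Matrix.det_fin_two] at hdet ⊢
  rw [Matrix.trace_fin_two] at htr
  simp only [Matrix.sub_apply, Matrix.one_apply_eq, ne_eq, zero_ne_one, not_false_eq_true,
    Matrix.one_apply_ne, one_ne_zero, sub_zero]
  linear_combination htr - hdet

end

/-- A multiple of exact order. -/
theorem exists_nsmul_addOrderOf {A : Type*} [AddCommGroup A] {z : A} {m j : ℕ}
    (hm : 2 ^ m • z = 0) (hj : 2 ^ j • z ≠ 0) :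
    ∃ i : ℕ, addOrderOf (2 ^ i • z) = 2 ^ (j + 1) := by
  obtain ⟨r, hr, hord⟩ := (Nat.dvd_prime_pow Nat.prime_two).1 (addOrderOf_dvd_of_nsmul_eq_zero hm)
  have hjr : j + 1 ≤ r := by
    by_contra h
    refine hj (addOrderOf_dvd_iff_nsmul_eq_zero.1 ?_)
    rw [hord]
    exact pow_dvd_pow 2 (by omega)
  refine ⟨r - (j + 1), ?_⟩
  rw [addOrderOf_nsmul_of_dvd (pow_ne_zero _ two_ne_zero) (by rw [hord]; exact pow_dvd_pow 2 (Nat.sub_le _ _)),
    hord, Nat.pow_div (Nat.sub_le _ _) two_pos, Nat.sub_sub_self hjr]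

/-- Eigen torsion of level `M q` descends to level `M`, losing a fixed constant. -/
theorem hasEigenTorsion_descend {a : ℕ → ℤ} {N M q e k : ℕ} [NeZero M] [NeZero (M * q)]
    (hN : N ≠ 0) (h2 : 2 ∣ N) (hq : q.Prime) (h : M * q ∣ N) (hI : LocalInputsTwo q M (2 ^ e))
    (D : RepData a N k) (hD : D.IsNonCentralAt q) (hx : HasEigenTorsion a N (M * q) k) :
    HasEigenTorsion a N M (k - e) := by
  classical
  obtain ⟨w, hw, hloc⟩ := hI
  obtain ⟨A, hA, φ, hφ, hunr, σ, hσ⟩ := hD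
  obtain ⟨x, hx, hord⟩ := hx
  rcases Nat.eq_zero_or_pos (k - e) with hke | hke
  · rw [hke]
    exact ⟨0, zero_mem _, by simp⟩
  obtain ⟨L, hLfin, hLgal, hLfix⟩ := D.exists_kernelField
  obtain ⟨slope, comp, hslope, hcomp, hker⟩ :=
    hloc k L hLfin hLgal (fun B hB τ hτ => by rw [hLfix]; exact hunr B hB τ hτ) A hA φ hφ
  have h2Mq : ∀ ℓ : ℕ, ℓ.Prime → ¬ ℓ ∣ N → ¬ ℓ ∣ 2 * (M * q) := fun ℓ hℓ hℓN hd =>
    (hℓ.dvd_mul.1 hd).elim (fun h' => hℓN (h'.trans h2)) fun h' => hℓN (h'.trans h)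
  have hmem : ∀ y ∈ eigenTorsion a N (M * q) (2 ^ k), y ∈ fixedTorsionMod (M * q) (2 ^ k) L :=
    fun y hy => BadPrime.Mazur.mem_fixedTorsion.2 ⟨hy.1, fun τ hτ =>
      smul_eq_self_of_rho_eq_one D hN h2 h hy (by rwa [hLfix, MonoidHom.mem_ker] at hτ)⟩
  have hslope0 : ∀ y (hy : y ∈ eigenTorsion a N (M * q) (2 ^ k)),
      (⟨y, hmem y hy⟩ : fixedTorsionMod (M * q) (2 ^ k) L) ∈ slope.ker := by
    intro y hy
    obtain ⟨ℓ, hℓN, hu⟩ := D.exists_nonEisenstein hN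
    rw [AddMonoidHom.mem_ker]
    refine hu.mul_left_eq_zero.1 ?_
    have h1 := hslope ℓ (h2Mq ℓ ℓ.2 hℓN) ⟨y, hmem y hy⟩ (a (ℓ : ℕ) • ⟨y, hmem y hy⟩)
      (hy.2 ℓ hℓN).symm
    rw [map_zsmul, zsmul_eq_mul] at h1
    linear_combination -h1
  let P : eigenTorsion a N (M * q) (2 ^ k) →+ slope.ker :=
    { toFun := fun y => ⟨⟨y.1, hmem y.1 y.2⟩, hslope0 y.1 y.2⟩
      map_zero' := rfl
      map_add' := fun _ _ => rfl }
  -- Frobenius on multiples with zero components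
  set j := k - e - 1 with hj
  by_cases hall : ∀ y : eigenTorsion a N (M * q) (2 ^ k), comp (P (2 ^ j • y)) = 0
  · exfalso
    have hcomm : ∀ (g : Γℚ) (m : ℕ) (z : JZero (M * q)), g • (m • z) = m • g • z := fun g m z =>
      map_nsmul (DistribSMul.toAddMonoidHom (JZero (M * q)) g) m z
    have hscal : ∀ y ∈ eigenTorsion a N (M * q) (2 ^ k),
        φ • (2 ^ (e + j) • y) = -(q • w (2 ^ (e + j) • y)) := by
      intro y hy
      have h1 := hker (P (2 ^ j • ⟨y, hy⟩)) (hall ⟨y, hy⟩)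
      simp only [P, AddMonoidHom.coe_mk, ZeroHom.coe_mk, AddSubgroup.coe_nsmul] at h1
      refine eq_neg_of_add_eq_zero_left ?_
      rw [pow_add, mul_nsmul' y, hcomm φ, map_nsmul w, smul_comm q, ← nsmul_add]
      exact h1
    set z := 2 ^ (e + j) • x with hz
    have hzmem : z ∈ eigenTorsion a N (M * q) (2 ^ k) := nsmul_mem hx _
    have hz0 : z = 0 := by
      refine eq_zero_of_commutator D hN h2 h hzmem hσ ?_
      have h1 : φ • (σ • z) = -(q • w (σ • z)) := by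
        rw [hz, hcomm σ]
        exact hscal _ (smul_mem_eigenTorsion σ hx)
      rw [h1, hscal x hx, smul_neg, hcomm σ q, hw]
    have h1 := addOrderOf_dvd_of_nsmul_eq_zero hz0
    rw [hord, Nat.pow_dvd_pow_iff_le_right one_lt_two] at h1
    omega
  push Not at hall
  obtain ⟨y, hy⟩ := hall
  rw [map_nsmul, map_nsmul] at hy
  have hP : 2 ^ k • comp (P y) = 0 := by
    rw [← map_nsmul, ← map_nsmul, show (2 ^ k • y) = 0 from Subtype.ext y.2.1, map_zero, map_zero]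
  have heig : ∀ ℓ : Nat.Primes, ¬ (ℓ : ℕ) ∣ N →
      (heckeOperatorBar M ℓ (comp (P y)).1, heckeOperatorBar M ℓ (comp (P y)).2) =
        a (ℓ : ℕ) • comp (P y) := fun ℓ hℓN => by
    rw [← hcomp ℓ (h2Mq ℓ ℓ.2 hℓN) (P y) (a (ℓ : ℕ) • P y) ?_, map_zsmul]
    simp only [P, AddMonoidHom.coe_mk, ZeroHom.coe_mk, AddSubgroup.coe_zsmul]
    exact (y.2.2 ℓ hℓN).symm
  have key : ∀ z : JZero M, 2 ^ k • z = 0 → 2 ^ j • z ≠ 0 →
      (∀ ℓ : Nat.Primes, ¬ (ℓ : ℕ) ∣ N → heckeOperatorBar M ℓ z = a (ℓ : ℕ) • z) →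
      HasEigenTorsion a N M (k - e) := by
    intro z h1 h2' h3
    obtain ⟨i, hi⟩ := exists_nsmul_addOrderOf h1 h2'
    rw [show j + 1 = k - e by omega] at hi
    refine ⟨2 ^ i • z, mem_eigenTorsion.2 ⟨?_, fun ℓ hℓ => ?_⟩, hi⟩
    · rw [← hi]
      exact addOrderOf_nsmul_eq_zero _
    · rw [map_nsmul, h3 ℓ hℓ, smul_comm]
  by_cases hfst : 2 ^ j • (comp (P y)).1 = 0
  · refine key _ (congrArg Prod.snd hP) (fun hsnd => hy (Prod.ext hfst hsnd)) fun ℓ hℓ =>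
      congrArg Prod.snd (heig ℓ hℓ)
  · exact key _ (congrArg Prod.fst hP) hfst fun ℓ hℓ => congrArg Prod.fst (heig ℓ hℓ)

end Fermat.Agent.TwoAdic.Removal
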