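import Fermat.Agent.TwoAdic.Removal.Curve
import Fermat.Agent.TwoAdic.Removal.Extract
import Fermat.Agent.TwoAdic.Removal.Inputs
import Fermat.Agent.TwoAdic.Removal.Limit
import Fermat.Agent.TwoAdic.Removal.Step
import Fermat.Agent.TwoAdic.Contracts.Props

/-!
# LT2 P8: removal of the auxiliary primes

Owner: helper65.
-/

set_option autoImplicit false

noncomputable section

namespace Fermat.Agent.TwoAdic.Removal

/-- Lowering the order of an eigen torsion point. -/
theorem HasEigenTorsion.mono {a : ℕ → ℤ} {N M j k : ℕ} [NeZero M] (hjk : j ≤ k)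
    (h : HasEigenTorsion a N M k) : HasEigenTorsion a N M j := by
  obtain ⟨x, hx, hord⟩ := h
  have hord' : addOrderOf (2 ^ (k - j) • x) = 2 ^ j := by
    rw [addOrderOf_nsmul_of_dvd (pow_ne_zero _ two_ne_zero)
      (by rw [hord]; exact pow_dvd_pow 2 (Nat.sub_le _ _)), hord,
      Nat.pow_div (Nat.sub_le _ _) two_pos, Nat.sub_sub_self hjk]
  refine ⟨2 ^ (k - j) • x, mem_eigenTorsion.2 ⟨?_, fun ℓ hℓ => ?_⟩, hord'⟩
  · rw [← hord']
    exact addOrderOf_nsmul_eq_zero _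
  · rw [map_nsmul, hx.2 ℓ hℓ, smul_comm]

theorem HasEigenTorsion.congr {a : ℕ → ℤ} {N L L' k : ℕ} [NeZero L] [NeZero L']
    (h : HasEigenTorsion a N L k) (e : L = L') : HasEigenTorsion a N L' k := by
  subst e
  exact h

/-- All auxiliary primes are removed, losing a fixed exponent at each. -/
theorem hasEigenTorsion_of_prod {a : ℕ → ℤ} {N : ℕ} (hN : N ≠ 0) (h2 : 2 ∣ N)
    (Q : Finset ℕ) (hD : ∀ k, k ≠ 0 → ∃ D : RepData a N k, ∀ q ∈ Q, D.IsNonCentralAt q) :
    ∀ (M : ℕ) [NeZero M] [NeZero (M * ∏ q ∈ Q, q)],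
      (∀ q ∈ Q, q.Prime ∧ 5 ≤ q ∧ ¬ q ∣ M) → M * ∏ q ∈ Q, q ∣ N →
      ∀ k, HasEigenTorsion a N (M * ∏ q ∈ Q, q) k →
        HasEigenTorsion a N M (k - 4 * Q.card) := by
  classical
  induction Q using Finset.induction with
  | empty =>
    intro M _ _ _ _ k h
    simpa using h
  | insert q Q hqQ ih =>
    intro M _ hne hQ hdvd k h
    obtain ⟨hq, hq5, hqM⟩ := hQ q (Finset.mem_insert_self q Q)
    have hM' : NeZero (M * ∏ r ∈ Q, r) := ⟨fun h0 => hne.out (by
      rw [Finset.prod_insert hqQ, mul_left_comm, h0, mul_zero])⟩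
    have e : M * ∏ r ∈ insert q Q, r = M * (∏ r ∈ Q, r) * q := by
      rw [Finset.prod_insert hqQ]; ring
    have : NeZero (M * (∏ r ∈ Q, r) * q) := ⟨e ▸ hne.out⟩
    have h' : HasEigenTorsion a N (M * (∏ r ∈ Q, r) * q) k := h.congr e
    have hdvd' : M * (∏ r ∈ Q, r) * q ∣ N := e ▸ hdvd
    have hqMQ : ¬ q ∣ M * ∏ r ∈ Q, r := fun hd => by
      rcases hq.dvd_mul.1 hd with hd | hd
      · exact hqM hd
      · obtain ⟨r, hr, hdr⟩ := (hq.prime.dvd_finsetProd_iff _).1 hd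
        exact hqQ ((Nat.prime_dvd_prime_iff_eq hq
          (hQ r (Finset.mem_insert_of_mem hr)).1).1 hdr ▸ hr)
    have h1 : HasEigenTorsion a N (M * ∏ r ∈ Q, r) (k - 4) := by
      rcases Nat.eq_zero_or_pos k with rfl | hk
      · rw [Nat.zero_sub]
        exact ⟨0, zero_mem _, by simp⟩
      obtain ⟨D, hDq⟩ := hD k hk.ne'
      exact hasEigenTorsion_descend hN h2 hq hdvd' (localInputsTwo hq hq5 hqMQ) D
        (hDq q (Finset.mem_insert_self q Q)) h'
    have h2' := ih (fun j hj => (hD j hj).imp fun D hD r hr => hD r (Finset.mem_insert_of_mem hr))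
      M (fun r hr => hQ r (Finset.mem_insert_of_mem hr))
      ((dvd_mul_right _ q).trans hdvd') (k - 4) h1
    refine h2'.mono (le_of_eq ?_)
    rw [Finset.card_insert_of_notMem hqQ]
    omega

/-- Congruent eigenforms modulo every power of `2`, with boundedly many auxiliary primes avoiding
any finite set, give residual modularity at `3` at the level of the bad primes. -/
theorem isModularSquarefree_of_closeSystems {V : WeierstrassCurve ℤ} (hV : IsTresModel V) (B : ℕ)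
    (H : ∀ n : ℕ, 2 ≤ n → ∀ S₀ : Finset ℕ, ∃ m Q, n ≤ m ∧ IsAuxSet V m Q ∧ (∀ q ∈ Q, q ∉ S₀) ∧
      Q.card ≤ B ∧ HasCloseSystem V n (auxLevel V Q)) :
    IsModularSquarefree V := by
  classical
  have hprime : ∀ p ∈ badPrimes V, p.Prime := fun p hp => Nat.prime_of_mem_primeFactors hp
  set M := ∏ p ∈ badPrimes V, p with hM
  have hM0 : M ≠ 0 := Finset.prod_ne_zero_iff.2 fun p hp => (hprime p hp).ne_zero
  have : NeZero M := ⟨hM0⟩
  have hbad : ∀ p : ℕ, p.Prime → (p : ℤ) ∣ V.Δ → p ∣ M := fun p hp hd =>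
    Finset.dvd_prod_of_mem _ ((mem_badPrimes_iff hV.delta_ne_zero).2 ⟨hp, hd⟩)
  refine ⟨M, Nat.pos_of_ne_zero hM0, ?_, hbad, fun h3 hd => ?_, ?_⟩
  · refine Finset.squarefree_prod_of_pairwise_isCoprime (fun p hp r hr hpr => ?_)
      fun p hp => (hprime p hp).squarefree
    exact Nat.coprime_iff_isRelPrime.1 ((Nat.coprime_primes (hprime p hp) (hprime r hr)).2 hpr)
  · obtain ⟨p, hp, h3p⟩ := (Nat.prime_three.prime.dvd_finsetProd_iff _).1 hd
    obtain rfl := (Nat.prime_dvd_prime_iff_eq Nat.prime_three (hprime p hp)).1 h3p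
    exact h3 ((mem_badPrimes_iff hV.delta_ne_zero).1 hp).2
  refine isResiduallyModularOfLevel_of_eigenTorsion hV.delta_ne_zero fun S k => ?_
  obtain ⟨m, Q, hnm, hQ, hS₀, hB, hclose⟩ :=
    H (k + 4 * B + 2) (by omega) (S ∪ badPrimes V ∪ {3})
  have hQp : ∀ q ∈ Q, q.Prime ∧ 5 ≤ q ∧ ¬ q ∣ M := fun q hq => by
    have hqp := (hQ.aux q hq).prime
    have h := hS₀ q hq
    simp only [Finset.mem_union, Finset.mem_singleton, not_or] at h
    refine ⟨hqp, ?_, fun hd => ?_⟩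
    · have h2 := hqp.two_le
      have h2' := (hQ.aux q hq).odd
      by_contra h5
      interval_cases q
      · exact h2' rfl
      · exact h.2 rfl
      · norm_num at hqp
    · obtain ⟨p, hp, hqp'⟩ := (hqp.prime.dvd_finsetProd_iff _).1 hd
      exact h.1.2 ((Nat.prime_dvd_prime_iff_eq hqp (hprime p hp)).1 hqp' ▸ hp)
  have hlev : auxLevel V Q = M * ∏ q ∈ Q, q := by
    refine Finset.prod_union (Finset.disjoint_right.2 fun q hq hqb => ?_)
    exact (hQp q hq).2.2 (Finset.dvd_prod_of_mem _ hqb)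
  have hne : NeZero (M * ∏ q ∈ Q, q) := ⟨mul_ne_zero hM0
    (Finset.prod_ne_zero_iff.2 fun q hq => (hQp q hq).1.ne_zero)⟩
  rw [hlev] at hclose
  have hx := hasEigenTorsion_of_closeSystem hclose
  have h2 : 2 ∣ M * ∏ q ∈ Q, q := (hbad 2 Nat.prime_two hV.two_dvd).mul_right _
  have h1 := hasEigenTorsion_of_prod hne.out h2 Q
    (fun j hj => by
      obtain ⟨D, hD⟩ := exists_repData hV (N := M * ∏ q ∈ Q, q)
        (fun p hp hd => (hbad p hp hd).mul_right _) hj
      exact ⟨D, fun q hq => hD q m (by omega) (hQ.aux q hq)⟩)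
    M hQp dvd_rfl (k + 4 * B + 2) hx
  refine ⟨M * ∏ q ∈ Q, q, dvd_mul_right _ _, fun ℓ hℓS hℓ hℓM hd => ?_, h1.mono (by omega)⟩
  rcases hℓ.dvd_mul.1 hd with hd | hd
  · exact hℓM hd
  · obtain ⟨q, hq, hdq⟩ := (hℓ.prime.dvd_finsetProd_iff _).1 hd
    obtain rfl := (Nat.prime_dvd_prime_iff_eq hℓ (hQp q hq).1).1 hdq
    have h := hS₀ ℓ hq
    simp only [Finset.mem_union, not_or] at h
    exact h.1.1 hℓS

/-- **P8.** -/
theorem limitModular : LimitModular := fun _ hV B H =>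
  isModularSquarefree_of_closeSystems hV B H

end Fermat.Agent.TwoAdic.Removal
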