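import Fermat.Agent.TwoAdic.Removal.Defs
import Fermat.Agent.TwoAdic.Switch.Galois.Places
import Fermat.Agent.TwoAdic.Switch.Galois.AuxCongruence

/-!
# LT2 P8: the representation data of the switched curve

`V[2 ^ k]` in a basis of the Tate module: Frobenius traces, residual non-commutation (the image
contains `SL₂`), and non-central Frobenius at auxiliary primes.

Owner: helper65.
-/

set_option autoImplicit false

noncomputable section

open Matrix WeierstrassCurve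
open scoped WeierstrassCurve.Affine

namespace Fermat.Agent.TwoAdic.Removal

local notation "ℚ̄" => AlgebraicClosure ℚ
local notation "Γℚ" => (AlgebraicClosure ℚ ≃ₐ[ℚ] AlgebraicClosure ℚ)

/-- An invertible matrix over `𝔽₂` other than `1` has invertible commutator with a transvection or
with the swap. -/
theorem exists_commutator_ne_zero :
    ∀ F : Matrix (Fin 2) (Fin 2) (ZMod 2), F.det ≠ 0 → F ≠ 1 →
      (F * !![1, 1; 0, 1] - !![1, 1; 0, 1] * F).det ≠ 0 ∨
        (F * !![0, 1; 1, 0] - !![0, 1; 1, 0] * F).det ≠ 0 := by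
  decide

variable {V : WeierstrassCurve ℤ} [(V.map (Int.castRingHom ℚ)).IsElliptic]

theorem trace_levelHom_frobenius
    (b : Module.Basis (Fin 2) ℤ_[2] (EC.tateRep (V.map (Int.castRingHom ℚ)) 2).V) {k : ℕ}
    (hk : k ≠ 0) {ℓ : ℕ} (hℓ : ℓ.Prime) (hℓ2 : ℓ ≠ 2) (hgood : V.IsGoodPrimeFor ℓ)
    {A : ValuationSubring ℚ̄} (hA : A.LiesOverPrime ℓ) {σ : Γℚ} (hσ : A.IsFrobeniusAt σ ℓ) :
    (levelHom b k σ).1.trace = (V.apOfModel ℓ : ZMod (2 ^ k)) := by
  have h : (EC.tateRep (V.map (Int.castRingHom ℚ)) 2).trace σ =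
      ((V.apOfModel ℓ : ℤ) : ℤ_[2]) := by
    refine (EC.tateRep_trace_eq_iff _ 2 σ _).mpr fun n => ?_
    rcases eq_or_ne n 0 with rfl | hn
    · have : Subsingleton (ZMod (2 ^ 0)) := by rw [pow_zero]; infer_instance
      exact Subsingleton.elim _ _
    · rw [map_intCast]
      exact EC.galoisTrace_frobenius V hℓ hA hgood hσ (Nat.one_lt_two_pow hn) fun h =>
        hℓ2 ((Nat.prime_dvd_prime_iff_eq hℓ Nat.prime_two).mp (hℓ.dvd_of_dvd_pow h))
  rw [coe_levelHom, ← AddMonoidHom.map_trace, ← LinearMap.trace_eq_matrix_trace]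
  exact (congrArg (PadicInt.toZModPow k) h).trans (map_intCast _ _)

theorem det_levelHom_frobenius (hΔ : V.Δ ≠ 0)
    (b : Module.Basis (Fin 2) ℤ_[2] (EC.tateRep (V.map (Int.castRingHom ℚ)) 2).V) {k : ℕ}
    (hk : k ≠ 0) {ℓ : ℕ} (hℓ : ℓ.Prime) (hℓ2 : ℓ ≠ 2)
    {A : ValuationSubring ℚ̄} (hA : A.LiesOverPrime ℓ) {σ : Γℚ} (hσ : A.IsFrobeniusAt σ ℓ) :
    (levelHom b k σ).1.det = (ℓ : ZMod (2 ^ k)) := by
  have : NeZero (2 ^ k) := ⟨pow_ne_zero k two_ne_zero⟩
  obtain ⟨bk, hbk⟩ := EC.exists_levelBasis (V.map (Int.castRingHom ℚ)) 2 b k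
  rw [coe_levelHom, ← EC.toMatrix_galoisRepModuleEnd _ 2 b bk hbk σ, LinearMap.det_toMatrix,
    EC.det_galoisRepModuleEnd_eq_cycloChar_of_one_lt hΔ (2 ^ k) (Nat.one_lt_two_pow hk) σ,
    EC.cycloChar_eq_of_isFrobeniusAt hℓ
      (fun h => hℓ2 ((Nat.prime_dvd_prime_iff_eq hℓ Nat.prime_two).1 (hℓ.dvd_of_dvd_pow h))) hA hσ]

omit [(V.map (Int.castRingHom ℚ)).IsElliptic] in
/-- The representation data of `V` modulo `2 ^ k`, non-central at auxiliary primes. -/
theorem exists_repData (hV : IsTresModel V) {N : ℕ}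
    (hbad : ∀ p : ℕ, p.Prime → (p : ℤ) ∣ V.Δ → p ∣ N) {k : ℕ} (hk : k ≠ 0) :
    ∃ D : RepData V.apOfModel N k, ∀ q n : ℕ, n ≠ 0 → IsAuxPrime V n q → D.IsNonCentralAt q := by
  have := EC.isElliptic_map_rat hV.delta_ne_zero
  obtain ⟨p, hp, hp2, hpd, hpc, hpv⟩ := hV.exists_odd_bad
  let b := EC.tateRepBasis (V.map (Int.castRingHom ℚ)) 2
  have hlift : ∀ M : Matrix (Fin 2) (Fin 2) (ZMod (2 ^ k)), ∀ hM : M.det = 1,
      ∃ σ : Γℚ, (levelHom b k σ).1 = M := by
    intro M hM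
    obtain ⟨σ, hσ⟩ := exists_levelHom_eq_of_det_eq_one hV.delta_ne_zero hp hp2 hpd hpc hpv
      hV.no_two_torsion b k (mkSL M hM) (by rw [coe_mkSL, hM])
    exact ⟨σ, by rw [hσ, coe_mkSL]⟩
  obtain ⟨σT, hT⟩ := hlift !![1, 1; 0, 1] (upper_det 1)
  obtain ⟨σS, hS⟩ := hlift !![0, -1; 1, 0] S_det
  let D : RepData V.apOfModel N k :=
    { ρ := levelHom b k
      finiteLevel := levelHom_finite_level b k
      frobenius := fun ℓ hℓ hℓN A hA => by
        have hgood : V.IsGoodPrimeFor ℓ := fun h => hℓN (hbad ℓ hℓ h)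
        have hℓ2 : ℓ ≠ 2 := fun h => hgood (h ▸ hV.two_dvd)
        exact ⟨fun σ hσ => levelHom_eq_one_of_good b k hℓ hℓ2 hgood hA hσ, fun σ hσ =>
          ⟨trace_levelHom_frobenius b hk hℓ hℓ2 hgood hA hσ,
            det_levelHom_frobenius hV.delta_ne_zero b hk hℓ hℓ2 hA hσ⟩⟩
      nondegenerate := ⟨σT, σS, by
        rw [hT, hS, Matrix.det_fin_two]
        simp [Matrix.mul_apply, Fin.sum_univ_two]⟩ }
  refine ⟨D, fun q n hn hq => ?_⟩
  obtain ⟨A, hA⟩ := Galois.exists_valuationSubring_liesOverPrime (L := ℚ̄) hq.prime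
  obtain ⟨φ, hφ⟩ := Galois.exists_isFrobeniusAt A hq.prime hA
  refine ⟨A, hA, φ, hφ,
    fun B hB σ hσ => levelHom_eq_one_of_good b k hq.prime hq.odd hq.good hB hσ, ?_⟩
  -- residually Frobenius is not the identity
  have hne : (redGL hk (levelHom b k φ)).1 ≠ 1 := by
    intro h1
    obtain ⟨g, hg⟩ := hq.frob A hA φ hφ
    have h2 := congrArg (fun x => (redGL hn x).1) (levelHom_eq_of_galoisRepModuleEnd_eq b hg)
    rw [redMat_levelHom b hn, redMat_levelHom b hn, ← redMat_levelHom b hk, ← redMat_levelHom b hk,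
      h1] at h2
    have h3 : redGL hk (levelHom b k (g * complexConjugation * g⁻¹)) = 1 := Units.ext h2.symm
    rw [map_mul, map_mul, map_inv, map_mul, map_mul, map_inv, mul_inv_eq_one, mul_eq_left] at h3
    exact redMat_levelHom_complexConjugation_ne_one hV.delta_neg b hk (congrArg Units.val h3)
  set F := (levelHom b k φ).1 with hF
  have hdet : (F.map (redHom hk)).det ≠ 0 := by
    show (redGL hk (levelHom b k φ)).1.det ≠ 0
    exact ((Matrix.isUnit_iff_isUnit_det _).1 (Units.isUnit _)).ne_zero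
  have hcomm : ∀ M : Matrix (Fin 2) (Fin 2) (ZMod (2 ^ k)),
      redHom hk (F * M - M * F).det =
        (F.map (redHom hk) * M.map (redHom hk) - M.map (redHom hk) * F.map (redHom hk)).det := by
    intro M
    rw [RingHom.map_det, RingHom.mapMatrix_apply, ← Matrix.map_mul, ← Matrix.map_mul,
      Matrix.map_sub _ (map_sub _)]
  have hT' : (levelHom b k σT).1.map (redHom hk) = !![1, 1; 0, 1] := by
    rw [hT]; ext i j; fin_cases i <;> fin_cases j <;> simp
  have hS' : (levelHom b k σS).1.map (redHom hk) = !![0, 1; 1, 0] := by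
    rw [hS]; ext i j; fin_cases i <;> fin_cases j <;> simp
  rcases exists_commutator_ne_zero _ hdet hne with h | h
  · refine ⟨σT, (isUnit_iff_red_ne_zero hk _).2 ?_⟩
    show redHom hk (F * (levelHom b k σT).1 - (levelHom b k σT).1 * F).det ≠ 0
    rw [hcomm, hT']
    exact h
  · refine ⟨σS, (isUnit_iff_red_ne_zero hk _).2 ?_⟩
    show redHom hk (F * (levelHom b k σS).1 - (levelHom b k σS).1 * F).det ≠ 0
    rw [hcomm, hS']
    exact h

end Fermat.Agent.TwoAdic.Removal
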