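import Fermat.Agent.BadPrime.Mazur.Defs
import Fermat.Prelude.Def_FLTPrelim_Ramification
import Mathlib.LinearAlgebra.Matrix.GeneralLinearGroup.Defs
import Mathlib.LinearAlgebra.Matrix.Trace

/-!
# LT2 P8: removing the auxiliary primes, definitions

Everything is phrased with an ambient modulus `N`, even, divisible by the levels in play: `a ℓ` is
used at the primes `ℓ ∤ N` only.

* `CongrLevel a N M m`: every polynomial in the good Hecke operators that kills `S₂(Γ₀(M))` takes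
  a value divisible by `m` at `a`.
* `eigenTorsion a N M m`: the points of `J₀(M)[m]` on which `T_ℓ` acts by `a ℓ`.
* `HasEigenTorsion a N M k`: `eigenTorsion a N M (2 ^ k)` has an element of order `2 ^ k`.
* `RepData a N n`: a representation modulo `2 ^ n` with Frobenius traces `a ℓ`, residually
  absolutely irreducible.
* `LocalInputsTwo q M c`: what the bad reduction of `X₀(Mq)` at `q` gives on `2 ^ n`-torsion fixed
  by an extension unramified at `q`, up to the constant `c`.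
-/

set_option autoImplicit false

noncomputable section

open ModularCurve MvPolynomial

namespace Fermat.Agent.TwoAdic.Removal

open Fermat.Agent.BadPrime.Mazur (GoodPrimes evalJ evalS)

local notation "ℚ̄" => AlgebraicClosure ℚ
local notation "Γℚ" => (AlgebraicClosure ℚ ≃ₐ[ℚ] AlgebraicClosure ℚ)

/-- The value of a polynomial in the good Hecke operators at the system `a`. -/
def evalA (a : ℕ → ℤ) (N : ℕ) : MvPolynomial (GoodPrimes N) ℤ →+* ℤ :=
  eval fun ℓ : GoodPrimes N => a (ℓ.1 : Nat.Primes)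

/-- `a` modulo `m` is a system of level `M`. -/
def CongrLevel (a : ℕ → ℤ) (N M : ℕ) [NeZero M] (h : M ∣ N) (m : ℤ) : Prop :=
  ∀ t : MvPolynomial (GoodPrimes N) ℤ, evalS h t = 0 → m ∣ evalA a N t

/-- The points of `J₀(M)[m]` on which `T_ℓ` acts by `a ℓ` for all `ℓ ∤ N`. -/
def eigenTorsion (a : ℕ → ℤ) (N M : ℕ) [NeZero M] (m : ℕ) : AddSubgroup (JZero M) where
  carrier := {x | m • x = 0 ∧
    ∀ ℓ : Nat.Primes, ¬ (ℓ : ℕ) ∣ N → heckeOperatorBar M ℓ x = a ℓ • x}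
  zero_mem' := ⟨smul_zero _, fun _ _ => by simp⟩
  add_mem' := fun {x y} hx hy => ⟨by rw [nsmul_add, hx.1, hy.1, add_zero],
    fun ℓ hℓ => by rw [map_add, hx.2 ℓ hℓ, hy.2 ℓ hℓ]; exact (zsmul_add x y _).symm⟩
  neg_mem' := fun {x} hx => ⟨by rw [neg_nsmul, hx.1, neg_zero],
    fun ℓ hℓ => by rw [map_neg, hx.2 ℓ hℓ]; exact (zsmul_neg x _).symm⟩

theorem mem_eigenTorsion {a : ℕ → ℤ} {N M : ℕ} [NeZero M] {m : ℕ} {x : JZero M} :
    x ∈ eigenTorsion a N M m ↔ m • x = 0 ∧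
      ∀ ℓ : Nat.Primes, ¬ (ℓ : ℕ) ∣ N → heckeOperatorBar M ℓ x = a ℓ • x :=
  Iff.rfl

/-- An element of exact order `2 ^ k` in `J₀(M)` on which `T_ℓ` acts by `a ℓ` for `ℓ ∤ N`. -/
def HasEigenTorsion (a : ℕ → ℤ) (N M k : ℕ) [NeZero M] : Prop :=
  ∃ x ∈ eigenTorsion a N M (2 ^ k), addOrderOf x = 2 ^ k

/-- A representation modulo `2 ^ n` attached to `a` away from `N`, residually absolutely
irreducible (two of its values have an invertible commutator). -/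
structure RepData (a : ℕ → ℤ) (N n : ℕ) where
  /-- The representation. -/
  ρ : Γℚ →* GL (Fin 2) (ZMod (2 ^ n))
  finiteLevel : ∃ L : IntermediateField ℚ ℚ̄, FiniteDimensional ℚ L ∧
    ∀ σ : Γℚ, (∀ x ∈ L, σ x = x) → ρ σ = 1
  frobenius : ∀ ℓ : ℕ, ℓ.Prime → ¬ ℓ ∣ N → ∀ A : ValuationSubring ℚ̄, A.LiesOverPrime ℓ →
    (∀ σ ∈ A.inertiaSubgroupIn ℚ, ρ σ = 1) ∧
    ∀ σ : Γℚ, A.IsFrobeniusAt σ ℓ →
      Matrix.trace (ρ σ : Matrix (Fin 2) (Fin 2) (ZMod (2 ^ n))) = (a ℓ : ZMod (2 ^ n)) ∧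
      Matrix.det (ρ σ : Matrix (Fin 2) (Fin 2) (ZMod (2 ^ n))) = (ℓ : ZMod (2 ^ n))
  nondegenerate : ∃ σ τ : Γℚ,
    IsUnit (Matrix.det ((ρ σ : Matrix (Fin 2) (Fin 2) (ZMod (2 ^ n))) *
      (ρ τ : Matrix (Fin 2) (Fin 2) (ZMod (2 ^ n))) -
      (ρ τ : Matrix (Fin 2) (Fin 2) (ZMod (2 ^ n))) *
        (ρ σ : Matrix (Fin 2) (Fin 2) (ZMod (2 ^ n)))))

/-- At `q`: unramified, with Frobenius residually non-central. -/
def RepData.IsNonCentralAt {a : ℕ → ℤ} {N n : ℕ} (D : RepData a N n) (q : ℕ) : Prop :=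
  ∃ A : ValuationSubring ℚ̄, A.LiesOverPrime q ∧ ∃ φ : Γℚ, A.IsFrobeniusAt φ q ∧
    (∀ B : ValuationSubring ℚ̄, B.LiesOverPrime q → ∀ σ ∈ B.inertiaSubgroupIn ℚ, D.ρ σ = 1) ∧
    ∃ σ : Γℚ, IsUnit (Matrix.det ((D.ρ φ : Matrix (Fin 2) (Fin 2) (ZMod (2 ^ n))) *
      (D.ρ σ : Matrix (Fin 2) (Fin 2) (ZMod (2 ^ n))) -
      (D.ρ σ : Matrix (Fin 2) (Fin 2) (ZMod (2 ^ n))) *
        (D.ρ φ : Matrix (Fin 2) (Fin 2) (ZMod (2 ^ n)))))

/-- The classes in `J₀(N)[m]` fixed by the Galois group of `L`. -/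
def fixedTorsionMod (N m : ℕ) (L : IntermediateField ℚ ℚ̄) : AddSubgroup (JZero N) :=
  BadPrime.Mazur.fixedTorsion N m L

/-- The inputs from the bad reduction of `X₀(Mq)` at `q ∤ M` on `2`-power torsion fixed by an
extension unramified at `q`: the slope, the two components lifted to `J₀(M)`, and Frobenius where
both components vanish, up to the constant `c`. -/
def LocalInputsTwo (q M c : ℕ) [NeZero M] [NeZero (M * q)] : Prop :=
  ∃ w : JZero (M * q) →+ JZero (M * q),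
    (∀ (σ : Γℚ) x, σ • w x = w (σ • x)) ∧
    ∀ (n : ℕ) (L : IntermediateField ℚ ℚ̄), FiniteDimensional ℚ L → IsGalois ℚ L →
    (∀ A : ValuationSubring ℚ̄, A.LiesOverPrime q →
      ∀ τ ∈ A.inertiaSubgroupIn ℚ, τ ∈ L.fixingSubgroup) →
    ∀ A : ValuationSubring ℚ̄, A.LiesOverPrime q →
    ∀ φ : Γℚ, A.IsFrobeniusAt φ q →
    ∃ (slope : fixedTorsionMod (M * q) (2 ^ n) L →+ ZMod (2 ^ n))
      (comp : slope.ker →+ JZero M × JZero M),
      (∀ (ℓ : Nat.Primes), ¬ (ℓ : ℕ) ∣ 2 * (M * q) →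
        ∀ x y : fixedTorsionMod (M * q) (2 ^ n) L,
        (y : JZero (M * q)) = heckeOperatorBar (M * q) ℓ x →
          slope y = (((ℓ : ℕ) : ZMod (2 ^ n)) + 1) * slope x) ∧
      (∀ (ℓ : Nat.Primes), ¬ (ℓ : ℕ) ∣ 2 * (M * q) → ∀ x y : slope.ker,
        ((y : fixedTorsionMod (M * q) (2 ^ n) L) : JZero (M * q)) =
          heckeOperatorBar (M * q) ℓ
            ((x : fixedTorsionMod (M * q) (2 ^ n) L) : JZero (M * q)) →
          comp y = (heckeOperatorBar M ℓ (comp x).1, heckeOperatorBar M ℓ (comp x).2)) ∧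
      ∀ x : slope.ker, comp x = 0 →
        c • (φ • ((x : fixedTorsionMod (M * q) (2 ^ n) L) : JZero (M * q)) +
          q • w ((x : fixedTorsionMod (M * q) (2 ^ n) L) : JZero (M * q))) = 0

end Fermat.Agent.TwoAdic.Removal
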