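import Fermat.Agent.TwoAdic.Removal.Defs
import Fermat.Agent.EichlerShimura.Inputs
import Fermat.Agent.EichlerShimura.GaloisHecke
import Fermat.Agent.Density.FrobeniusDensity
import Fermat.Agent.Density.AbsIrr
import Fermat.Agent.LevelP.Embedding
import Mathlib.Algebra.Module.ZMod
import Mathlib.Algebra.Module.LinearMap.End

/-!
# LT2 P8 (A): `ρ` controls the Galois action on the eigen torsion

By the congruence relation and Frobenius density every `σ` satisfies
`σ² - tr (ρ σ) σ + det (ρ σ) = 0` on `eigenTorsion`; as two values of `ρ` have an invertible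
commutator, the kernel of `ρ` acts trivially.

Owner: helper68.
-/

set_option autoImplicit false

noncomputable section

open ModularCurve

namespace Fermat.Agent.TwoAdic.Removal

local notation "ℚ̄" => AlgebraicClosure ℚ
local notation "Γℚ" => (AlgebraicClosure ℚ ≃ₐ[ℚ] AlgebraicClosure ℚ)

/-- In an algebra where two elements satisfy their quadratic equations and the polarised one, the
square of the commutator is a scalar given by the coefficients. -/
theorem commutator_sq {k R : Type*} [CommRing k] [Ring R] [Algebra k R] (A B : R)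
    (tA dA tB dB c u e : k)
    (hA : A * A = tA • A - dA • 1) (hB : B * B = tB • B - dB • 1)
    (hBA : B * A = tB • A + tA • B + c • 1 - A * B)
    (hX : (A * B) * (A * B) = u • (A * B) - e • 1)
    (hY : (B * A) * (B * A) = u • (B * A) - e • 1) (hc : c = u - tA * tB) :
    (A * B - B * A) * (A * B - B * A) =
      (u * c - 2 * e + tB * tB * dA + tA * tA * dB - 2 * (dA * dB)) • (1 : R) := by
  have hABA : A * (B * A) = tB • (A * A) + tA • (A * B) + c • A - (A * A) * B := by
    rw [hBA, mul_sub, mul_add, mul_add, mul_smul_comm, mul_smul_comm, mul_smul_comm, mul_one,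
      ← mul_assoc]
  have hBAB : (B * A) * B = tB • (A * B) + tA • (B * B) + c • B - A * (B * B) := by
    rw [hBA, sub_mul, add_mul, add_mul, smul_mul_assoc, smul_mul_assoc, smul_mul_assoc, one_mul,
      mul_assoc A B B]
  have hXY : (A * B) * (B * A) = tB • (A * (B * A)) - dB • (A * A) := by
    rw [mul_assoc, ← mul_assoc B B A, hB, sub_mul, smul_mul_assoc, smul_mul_assoc, one_mul,
      mul_sub, mul_smul_comm, mul_smul_comm]
  have hYX : (B * A) * (A * B) = tA • (B * A * B) - dA • (B * B) := by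
    rw [mul_assoc, ← mul_assoc A A B, hA, sub_mul, smul_mul_assoc, smul_mul_assoc, one_mul,
      mul_sub, mul_smul_comm, mul_smul_comm, ← mul_assoc]
  rw [hA] at hABA hXY
  rw [hB] at hBAB hYX
  rw [sub_mul, smul_mul_assoc, smul_mul_assoc, one_mul] at hABA
  rw [mul_sub, mul_smul_comm, mul_smul_comm, mul_one] at hBAB
  rw [hABA] at hXY
  rw [hBAB] at hYX
  rw [sub_mul, mul_sub, mul_sub, hX, hY, hXY, hYX, hBA, hc]
  module

theorem quadratic_apply_subgroup_iff {G : Type*} [AddCommGroup G] (H : AddSubgroup G) {m : ℕ}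
    [Module (ZMod m) H] (f : Module.End (ZMod m) H) (F : G → G)
    (hf : ∀ y : H, ((f y : H) : G) = F (y : G)) (t' d' : ZMod m) {t d : ℤ}
    (ht : t' = (t : ZMod m)) (hd : d' = (d : ZMod m)) (y : H) :
    (f * f - t' • f + d' • (1 : Module.End (ZMod m) H)) y = (0 : Module.End (ZMod m) H) y ↔
      F (F (y : G)) - t • F (y : G) + d • (y : G) = 0 := by
  subst ht hd
  rw [LinearMap.add_apply, LinearMap.sub_apply, LinearMap.smul_apply, LinearMap.smul_apply,
    Module.End.mul_apply, Module.End.one_apply, LinearMap.zero_apply, Int.cast_smul_eq_zsmul,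
    Int.cast_smul_eq_zsmul, Subtype.ext_iff, AddSubgroup.coe_add, AddSubgroup.coe_sub,
    AddSubgroup.coe_zsmul, AddSubgroup.coe_zsmul, hf, hf, ZeroMemClass.coe_zero]

theorem quadratic_eq_zero_of_forall {G : Type*} [AddCommGroup G] (H : AddSubgroup G) {m : ℕ}
    [Module (ZMod m) H] (f : Module.End (ZMod m) H) (F : G → G)
    (hf : ∀ y : H, ((f y : H) : G) = F (y : G)) (t' d' : ZMod m)
    (h : ∀ t d : ℤ, t' = (t : ZMod m) → d' = (d : ZMod m) → ∀ y ∈ H,
      F (F y) - t • F y + d • y = 0) :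
    f * f - t' • f + d' • (1 : Module.End (ZMod m) H) = 0 := by
  obtain ⟨t, ht⟩ := ZMod.intCast_surjective t'
  obtain ⟨d, hd⟩ := ZMod.intCast_surjective d'
  exact LinearMap.ext fun y => (quadratic_apply_subgroup_iff H f F hf t' d' ht.symm hd.symm y).2
    (h t d ht.symm hd.symm _ y.2)

theorem quadratic_hom_pow {G k A : Type*} [Monoid G] [CommRing k] [Ring A] [Algebra k A]
    (P : G →* Matrix (Fin 2) (Fin 2) k) (π : G →* A) (g : G)
    (h : π g * π g - (P g).trace • π g + (P g).det • (1 : A) = 0) (b : ℕ) :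
    π (g ^ b) * π (g ^ b) - (P (g ^ b)).trace • π (g ^ b) + (P (g ^ b)).det • (1 : A) = 0 := by
  rw [map_pow, map_pow]
  exact LevelP.quadratic_pow (P g) (π g) h b

section abstractBLR

variable {G k E : Type*} [Group G] [CommRing k] [AddCommGroup E] [Module k E]
  {P : G →* Matrix (Fin 2) (Fin 2) k} {π : G →* Module.End k E}

theorem polar_of_quadratic
    (hq : ∀ g, π g * π g - (P g).trace • π g + (P g).det • (1 : Module.End k E) = 0) (g h : G) :
    π g * π h + π h * π g = (P h).trace • π g + (P g).trace • π h +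
      ((P g * P h).trace - (P g).trace * (P h).trace) • (1 : Module.End k E) := by
  have hconj : ∀ a : G, (P a).trace • (1 : Module.End k E) - π a = (P a).det • π a⁻¹ := by
    intro a
    have h1 : π a * π a⁻¹ = 1 := by rw [← map_mul, mul_inv_cancel, map_one]
    have h2 := congrArg (· * π a⁻¹) (hq a)
    simp only [add_mul, sub_mul, mul_assoc, h1, mul_one, smul_mul_assoc, one_mul, zero_mul] at h2
    linear_combination (norm := module) -h2
  have key := hconj (g * h)
  rw [map_mul P, Matrix.det_mul, _root_.mul_inv_rev, map_mul π h⁻¹, map_mul π,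
    mul_comm (P g).det, ← smul_smul, ← mul_smul_comm, ← smul_mul_assoc,
    ← hconj, ← hconj] at key
  simp only [sub_mul, mul_sub, smul_mul_assoc, mul_smul_comm, one_mul, mul_one] at key
  linear_combination (norm := module) -key

theorem matrix_polar (A B : Matrix (Fin 2) (Fin 2) k) :
    B * A = B.trace • A + A.trace • B + ((A * B).trace - A.trace * B.trace) • 1 - A * B := by
  ext i j
  fin_cases i <;> fin_cases j <;>
    simp [Matrix.mul_apply, Matrix.trace_fin_two, Fin.sum_univ_two] <;> ring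

/-- The commutator of two values squares to a scalar, invertible when the commutator of the
matrices is. -/
theorem exists_commutator_sq
    (hq : ∀ g, π g * π g - (P g).trace • π g + (P g).det • (1 : Module.End k E) = 0) {φ σ : G}
    (hunit : IsUnit (Matrix.det (P φ * P σ - P σ * P φ))) :
    ∃ κ : k, IsUnit κ ∧
      (π φ * π σ - π σ * π φ) * (π φ * π σ - π σ * π φ) = κ • 1 := by
  have hPq : ∀ g, P g * P g = (P g).trace • P g - (P g).det • 1 :=
    fun g => Density.matrix_two_mul_self (P g)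
  have hπq : ∀ g, π g * π g = (P g).trace • π g - (P g).det • 1 := fun g => by
    linear_combination (norm := module) hq g
  have htr : (P σ * P φ).trace = (P φ * P σ).trace := Matrix.trace_mul_comm _ _
  have hdt : (P σ * P φ).det = (P φ * P σ).det := by
    rw [Matrix.det_mul, Matrix.det_mul, mul_comm]
  have hX := hπq (φ * σ)
  have hY := hπq (σ * φ)
  rw [map_mul π, map_mul P] at hX hY
  rw [htr, hdt] at hY
  have hX' := Density.matrix_two_mul_self (P φ * P σ)
  have hY' := Density.matrix_two_mul_self (P σ * P φ)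
  rw [htr, hdt] at hY'
  have e := commutator_sq (π φ) (π σ) _ _ _ _
    ((P φ * P σ).trace - (P φ).trace * (P σ).trace) _ _ (hπq φ) (hπq σ)
    (by linear_combination (norm := module) polar_of_quadratic hq φ σ) hX hY rfl
  have e' := commutator_sq (P φ) (P σ) _ _ _ _
    ((P φ * P σ).trace - (P φ).trace * (P σ).trace) _ _ (hPq φ) (hPq σ)
    (matrix_polar (P φ) (P σ)) hX' hY' rfl
  refine ⟨_, ?_, e⟩
  have h := congrArg Matrix.det e'
  rw [Matrix.det_mul, Matrix.det_smul, Matrix.det_one, mul_one, Fintype.card_fin] at h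
  have h' := hunit.mul hunit
  rw [h] at h'
  exact (isUnit_pow_iff two_ne_zero).1 h'

theorem eq_zero_of_commute_apply {φ σ : G} {κ : k} (hκ : IsUnit κ)
    (hC : (π φ * π σ - π σ * π φ) * (π φ * π σ - π σ * π φ) = κ • 1) {x : E}
    (h : π φ (π σ x) = π σ (π φ x)) : x = 0 := by
  have h0 : (π φ * π σ - π σ * π φ) x = 0 := by
    rw [LinearMap.sub_apply, Module.End.mul_apply, Module.End.mul_apply, h, sub_self]
  have h1 := LinearMap.congr_fun hC x
  rw [Module.End.mul_apply, h0, map_zero, LinearMap.smul_apply, Module.End.one_apply] at h1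
  exact hκ.smul_eq_zero.1 h1.symm

/-- Boston–Lenstra–Ribet: with two values with invertible commutator, the kernel of the matrix
representation acts trivially. -/
theorem map_eq_one_of_commutator
    (hq : ∀ g, π g * π g - (P g).trace • π g + (P g).det • (1 : Module.End k E) = 0) {σ φ τ : G}
    (hunit : IsUnit (Matrix.det (P φ * P τ - P τ * P φ))) (hσ : P σ = 1) : π σ = 1 := by
  obtain ⟨κ, hκ, hC⟩ := exists_commutator_sq hq (φ := φ) (σ := τ) hunit
  have hconj : ∀ g, (P g).trace • (1 : Module.End k E) - π g = (P g).det • π g⁻¹ := by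
    intro g
    have h1 : π g * π g⁻¹ = 1 := by rw [← map_mul, mul_inv_cancel, map_one]
    have h2 := congrArg (· * π g⁻¹) (hq g)
    simp only [add_mul, sub_mul, mul_assoc, h1, mul_one, smul_mul_assoc, one_mul, zero_mul] at h2
    linear_combination (norm := module) -h2
  have hmove : ∀ g, (π σ - 1) * π g = ((P g).trace • 1 - π g) * (π σ - 1) := by
    intro g
    have hp := polar_of_quadratic hq σ g
    rw [hσ, Matrix.trace_one, Fintype.card_fin, one_mul, Nat.cast_ofNat] at hp
    simp only [sub_mul, mul_sub, one_mul, mul_one, smul_mul_assoc]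
    linear_combination (norm := module) hp
  set u := (P φ).trace • (1 : Module.End k E) - π φ with hu
  set v := (P τ).trace • (1 : Module.End k E) - π τ with hv
  have hA : (π σ - 1) * (π φ * π τ) = u * v * (π σ - 1) := by
    rw [← mul_assoc, hmove, mul_assoc, hmove, ← mul_assoc]
  have hB : (π σ - 1) * (π φ * π τ) = v * u * (π σ - 1) := by
    rw [← map_mul π, hmove, hconj, map_mul P, Matrix.det_mul, _root_.mul_inv_rev, map_mul π,
      mul_comm (P φ).det, ← smul_smul, ← mul_smul_comm, ← smul_mul_assoc, ← hconj, ← hconj]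
  have huv : u * v - v * u = π φ * π τ - π τ * π φ := by
    rw [hu, hv]
    simp only [sub_mul, mul_sub, smul_mul_assoc, mul_smul_comm, one_mul, mul_one]
    module
  have h0 : (π φ * π τ - π τ * π φ) * (π σ - 1) = 0 := by
    rw [← huv, sub_mul, ← hA, ← hB, sub_self]
  have h1 : κ • (π σ - 1) = 0 := by
    rw [← one_mul (π σ - 1), ← smul_mul_assoc, ← hC, mul_assoc, h0, mul_zero]
  exact sub_eq_zero.1 (hκ.smul_eq_zero.1 h1)

end abstractBLR

variable {a : ℕ → ℤ} {N M n : ℕ} [NeZero M] {x : JZero M}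

/-- `T_ℓ` commutes with Galois, so the eigen torsion is Galois stable. -/
theorem smul_mem_eigenTorsion (σ : Γℚ) {m : ℕ} (hx : x ∈ eigenTorsion a N M m) :
    σ • x ∈ eigenTorsion a N M m := by
  obtain ⟨hm, hT⟩ := hx
  let f : JZero M →+ JZero M := DistribSMul.toAddMonoidHom (JZero M) σ
  refine ⟨?_, fun ℓ hℓ => ?_⟩
  · show m • f x = 0
    rw [← map_nsmul, hm, map_zero]
  · rw [← EichlerShimura.galois_smul_heckeOperatorBar ℓ σ x, hT ℓ hℓ]
    exact map_zsmul f _ _

instance instModuleEigenTorsion : Module (ZMod (2 ^ n)) (eigenTorsion a N M (2 ^ n)) :=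
  AddCommGroup.zmodModule fun y => Subtype.ext y.2.1

/-- The action of Galois on the eigen torsion, as a representation over `ℤ / 2 ^ n`. -/
def galRep (a : ℕ → ℤ) (N M n : ℕ) [NeZero M] :
    Γℚ →* Module.End (ZMod (2 ^ n)) (eigenTorsion a N M (2 ^ n)) where
  toFun g := AddMonoidHom.toZModLinearMap (2 ^ n)
    (AddMonoidHom.mk' (fun y : eigenTorsion a N M (2 ^ n) =>
        (⟨g • (y : JZero M), smul_mem_eigenTorsion g y.2⟩ : eigenTorsion a N M (2 ^ n)))
      fun y z => Subtype.ext (smul_add g (y : JZero M) (z : JZero M)))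
  map_one' := by
    refine LinearMap.ext fun y => Subtype.ext ?_
    exact one_smul Γℚ (y : JZero M)
  map_mul' g h := by
    refine LinearMap.ext fun y => Subtype.ext ?_
    exact mul_smul g h (y : JZero M)

theorem galRep_apply (σ : Γℚ) (y : eigenTorsion a N M (2 ^ n)) :
    ((galRep a N M n σ y : eigenTorsion a N M (2 ^ n)) : JZero M) = σ • (y : JZero M) :=
  rfl

/-- The representation as matrices. -/
def RepData.mat (D : RepData a N n) : Γℚ →* Matrix (Fin 2) (Fin 2) (ZMod (2 ^ n)) :=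
  (Units.coeHom _).comp D.ρ

theorem RepData.mat_apply (D : RepData a N n) (g : Γℚ) :
    D.mat g = (D.ρ g : Matrix (Fin 2) (Fin 2) (ZMod (2 ^ n))) := rfl

theorem quadratic_apply_eq_zero_iff (g : Γℚ) (t' d' : ZMod (2 ^ n)) {t d : ℤ}
    (ht : t' = (t : ZMod (2 ^ n))) (hd : d' = (d : ZMod (2 ^ n)))
    (y : eigenTorsion a N M (2 ^ n)) :
    (galRep a N M n g * galRep a N M n g - t' • galRep a N M n g +
        d' • (1 : Module.End (ZMod (2 ^ n)) (eigenTorsion a N M (2 ^ n)))) y =
        (0 : Module.End (ZMod (2 ^ n)) (eigenTorsion a N M (2 ^ n))) y ↔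
      g • g • (y : JZero M) - t • g • (y : JZero M) + d • (y : JZero M) = 0 :=
  quadratic_apply_subgroup_iff (eigenTorsion a N M (2 ^ n)) (galRep a N M n g)
    (fun z : JZero M => g • z) (galRep_apply g) t' d' ht hd y

theorem exists_level (D : RepData a N n) (s : Finset (JZero M)) :
    ∃ L : IntermediateField ℚ ℚ̄, FiniteDimensional ℚ L ∧
      ∀ σ : Γℚ, (∀ b ∈ L, σ b = b) → D.ρ σ = 1 ∧ ∀ y ∈ s, σ • y = y := by
  classical
  induction s using Finset.induction with
  | empty =>
    obtain ⟨L, hL, h⟩ := D.finiteLevel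
    exact ⟨L, hL, fun σ hσ => ⟨h σ hσ, fun y hy => absurd hy (Finset.notMem_empty y)⟩⟩
  | insert y s _ ih =>
    obtain ⟨L₁, h₁, k₁⟩ := ih
    obtain ⟨L₂, h₂, k₂⟩ := EichlerShimura.galoisFiniteLevel_modular M y
    refine ⟨L₁ ⊔ L₂, IntermediateField.finiteDimensional_sup L₁ L₂, fun σ hσ => ?_⟩
    have e₁ := k₁ σ fun b hb => hσ b (le_sup_left (a := L₁) (b := L₂) hb)
    refine ⟨e₁.1, fun z hz => ?_⟩
    rcases Finset.mem_insert.1 hz with rfl | hz
    · exact k₂ σ fun b hb => hσ b (le_sup_right (a := L₁) (b := L₂) hb)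
    · exact e₁.2 z hz

theorem smul_smul_relation (D : RepData a N n) (hN : N ≠ 0) (h2 : 2 ∣ N) (hM : M ∣ N)
    (hx : x ∈ eigenTorsion a N M (2 ^ n)) (σ : Γℚ) (t d : ℤ)
    (ht : Matrix.trace (D.ρ σ : Matrix (Fin 2) (Fin 2) (ZMod (2 ^ n))) = (t : ZMod (2 ^ n)))
    (hd : Matrix.det (D.ρ σ : Matrix (Fin 2) (Fin 2) (ZMod (2 ^ n))) = (d : ZMod (2 ^ n))) :
    σ • σ • x - t • σ • x + d • x = 0 := by
  classical
  obtain ⟨L, hL, hlev⟩ := exists_level D {x, σ • x}
  obtain ⟨ℓ, hℓ, hℓS, A, φ, hA, hφ, -, -, b, -, hb⟩ :=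
    Density.exists_isFrobeniusAt_agree_pow L σ N.primeFactors
  have hℓN : ¬ ℓ ∣ N := fun h => hℓS (Nat.mem_primeFactors.2 ⟨hℓ, h, hN⟩)
  have hℓ2M : ¬ ℓ ∣ M * 2 := fun h => by
    rcases (Nat.Prime.dvd_mul hℓ).1 h with h | h
    · exact hℓN (h.trans hM)
    · exact hℓN (h.trans h2)
  have hτ := hlev ((φ ^ b)⁻¹ * σ) fun c hc => by
    rw [AlgEquiv.mul_apply, hb c hc, ← AlgEquiv.mul_apply, inv_mul_cancel, AlgEquiv.one_apply]
  have hρ : D.ρ σ = D.ρ φ ^ b := by
    have h1 := hτ.1
    rw [map_mul, map_inv, map_pow, inv_mul_eq_one] at h1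
    exact h1.symm
  obtain ⟨htr, hdet⟩ := (D.frobenius ℓ hℓ hℓN A hA).2 φ hφ
  rw [← D.mat_apply] at htr hdet
  have hdet' : (D.mat φ).det = (((ℓ : ℤ)) : ZMod (2 ^ n)) := by rw [hdet, Int.cast_natCast]
  have hquad : galRep a N M n φ * galRep a N M n φ - (D.mat φ).trace • galRep a N M n φ +
      (D.mat φ).det • (1 : Module.End (ZMod (2 ^ n)) (eigenTorsion a N M (2 ^ n))) = 0 := by
    refine LinearMap.ext fun y => ?_
    rw [quadratic_apply_eq_zero_iff _ _ _ htr hdet' y]
    have h1 := (EichlerShimura.frobeniusOnTorsion_modular M 2 ℓ hℓ hℓ2M A hA).2 φ hφ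
      (y : JZero M) ⟨n, y.2.1⟩
    rw [(smul_mem_eigenTorsion φ y.2).2 ⟨ℓ, hℓ⟩ hℓN, ← natCast_zsmul] at h1
    exact h1
  have hpow := quadratic_hom_pow D.mat (galRep a N M n) φ hquad b
  have hmat : D.mat (φ ^ b) = D.mat σ := by
    rw [D.mat_apply, D.mat_apply, map_pow D.ρ, ← hρ]
  have ht' : (D.mat (φ ^ b)).trace = (t : ZMod (2 ^ n)) := by rw [hmat]; exact ht
  have hd' : (D.mat (φ ^ b)).det = (d : ZMod (2 ^ n)) := by rw [hmat]; exact hd
  have h1 : φ ^ b • φ ^ b • x - t • φ ^ b • x + d • x = 0 :=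
    (quadratic_apply_eq_zero_iff (φ ^ b) _ _ ht' hd' ⟨x, hx⟩).1
      (LinearMap.congr_fun hpow ⟨x, hx⟩)
  have hsame : ∀ y ∈ ({x, σ • x} : Finset (JZero M)), φ ^ b • y = σ • y := fun y hy => by
    conv_lhs => rw [← hτ.2 y hy]
    rw [smul_smul, mul_inv_cancel_left]
  have e1 := hsame x (by simp)
  have e2 := hsame (σ • x) (by simp)
  rwa [e1, e2] at h1

section action

variable (D : RepData a N n) (hN : N ≠ 0) (h2 : 2 ∣ N) (hM : M ∣ N)

include hN h2 hM in
theorem galRep_quadratic (g : Γℚ) :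
    galRep a N M n g * galRep a N M n g - (D.mat g).trace • galRep a N M n g +
      (D.mat g).det • (1 : Module.End (ZMod (2 ^ n)) (eigenTorsion a N M (2 ^ n))) = 0 :=
  quadratic_eq_zero_of_forall (eigenTorsion a N M (2 ^ n)) (galRep a N M n g)
    (fun z : JZero M => g • z) (galRep_apply g) (D.mat g).trace (D.mat g).det
    fun t d ht hd _ hy => smul_smul_relation D hN h2 hM hy g t d ht hd

include hN h2 hM in
/-- An element on which `φ` commutes with some `σ`, with invertible commutator in `ρ`, is zero. -/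
theorem eq_zero_of_commutator (hx : x ∈ eigenTorsion a N M (2 ^ n)) {φ σ : Γℚ}
    (hunit : IsUnit (Matrix.det ((D.ρ φ : Matrix (Fin 2) (Fin 2) (ZMod (2 ^ n))) *
      (D.ρ σ : Matrix (Fin 2) (Fin 2) (ZMod (2 ^ n))) -
      (D.ρ σ : Matrix (Fin 2) (Fin 2) (ZMod (2 ^ n))) *
        (D.ρ φ : Matrix (Fin 2) (Fin 2) (ZMod (2 ^ n))))))
    (h : φ • σ • x = σ • φ • x) : x = 0 := by
  obtain ⟨κ, hκ, hC⟩ := exists_commutator_sq (galRep_quadratic D hN h2 hM) (φ := φ) (σ := σ) hunit
  have hxy : galRep a N M n φ (galRep a N M n σ ⟨x, hx⟩) =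
      galRep a N M n σ (galRep a N M n φ ⟨x, hx⟩) := by
    refine Subtype.ext ?_
    rw [galRep_apply, galRep_apply, galRep_apply, galRep_apply]
    exact h
  exact congrArg Subtype.val (eq_zero_of_commute_apply hκ hC hxy)

include hN h2 hM in
theorem smul_eq_self_of_rho_eq_one (hx : x ∈ eigenTorsion a N M (2 ^ n)) {σ : Γℚ}
    (hσ : D.ρ σ = 1) : σ • x = x := by
  obtain ⟨φ, τ, hunit⟩ := D.nondegenerate
  have h1 : galRep a N M n σ = 1 :=
    map_eq_one_of_commutator (galRep_quadratic D hN h2 hM) (φ := φ) (τ := τ) hunit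
      (by rw [D.mat_apply, hσ, Units.val_one])
  have h2 := congrArg Subtype.val (LinearMap.congr_fun h1 ⟨x, hx⟩)
  rw [galRep_apply, Module.End.one_apply] at h2
  exact h2

end action

end Fermat.Agent.TwoAdic.Removal
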