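import Fermat.Agent.TwoAdic.Removal.Defs
import Fermat.Prelude.Def_ModularCurve_ReductionModL

/-!
# LT2 P8: the residual classes at an auxiliary prime, statement

`LocalResidues q M c` is what the two component model of `X₀(Mq)` at `q` gives: the slope, the
classes of the two normalised residues on the special fibre of `X₀(M)`, compatible with `T_ℓ` (read
through lifts), and Frobenius where both classes vanish.
-/

set_option autoImplicit false

noncomputable section

open ModularCurve

namespace Fermat.Agent.TwoAdic.Removal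

local notation "ℚ̄" => AlgebraicClosure ℚ
local notation "Γℚ" => (AlgebraicClosure ℚ ≃ₐ[ℚ] AlgebraicClosure ℚ)

/-- The residual classes of the `2`-power torsion fixed by an extension unramified at `q`. -/
def LocalResidues (q M c : ℕ) [NeZero M] [NeZero (M * q)] : Prop :=
  ∃ w : JZero (M * q) →+ JZero (M * q),
    (∀ (σ : Γℚ) x, σ • w x = w (σ • x)) ∧
    ∀ (n : ℕ) (L : IntermediateField ℚ ℚ̄), FiniteDimensional ℚ L → IsGalois ℚ L →
    (∀ A : ValuationSubring ℚ̄, A.LiesOverPrime q →
      ∀ τ ∈ A.inertiaSubgroupIn ℚ, τ ∈ L.fixingSubgroup) →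
    ∀ A : ValuationSubring ℚ̄, A.LiesOverPrime q →
    ∀ φ : Γℚ, A.IsFrobeniusAt φ q →
    ∃ (slope : fixedTorsionMod (M * q) (2 ^ n) L →+ ZMod (2 ^ n))
      (res : slope.ker →+ JZeroC (IsLocalRing.ResidueField A) M ×
        JZeroC (IsLocalRing.ResidueField A) M),
      (∀ (ℓ : Nat.Primes), ¬ (ℓ : ℕ) ∣ 2 * (M * q) →
        ∀ x y : fixedTorsionMod (M * q) (2 ^ n) L,
        (y : JZero (M * q)) = heckeOperatorBar (M * q) ℓ x →
          slope y = (((ℓ : ℕ) : ZMod (2 ^ n)) + 1) * slope x) ∧
      (∀ (ℓ : Nat.Primes), ¬ (ℓ : ℕ) ∣ 2 * (M * q) → ∀ x y : slope.ker,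
        ((y : fixedTorsionMod (M * q) (2 ^ n) L) : JZero (M * q)) =
          heckeOperatorBar (M * q) ℓ
            ((x : fixedTorsionMod (M * q) (2 ^ n) L) : JZero (M * q)) →
          ∀ z₁ z₂ : JZero M, reductionModL A M z₁ = (res x).1 →
            reductionModL A M z₂ = (res x).2 →
            res y = (reductionModL A M (heckeOperatorBar M ℓ z₁),
              reductionModL A M (heckeOperatorBar M ℓ z₂))) ∧
      ∀ x : slope.ker, res x = 0 →
        c • (φ • ((x : fixedTorsionMod (M * q) (2 ^ n) L) : JZero (M * q)) +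
          q • w ((x : fixedTorsionMod (M * q) (2 ^ n) L) : JZero (M * q))) = 0

end Fermat.Agent.TwoAdic.Removal
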